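import Fermat.Statements.S20
import Fermat.Agent.S20.Assembly
import Fermat.Agent.S20.EllipticCount
import Fermat.Agent.S20.DualFrame

set_option autoImplicit false
open CuspForm

namespace Fermat.Agent.S20

theorem result (N : ℕ) [NeZero N] :
    (Module.finrank ℂ (CuspForm (CongruenceSubgroup.Gamma0 N) 2) : ℚ) = ModularCurve.genusFormula N := by
  classical
  letI : Fintype (Q N) := Fintype.ofFinite _
  obtain ⟨B⟩ := exists_frame (N := N) exists_Phi
  have hdet : ∀ τ, (B.evalMat τ).det ≠ 0 :=
    B.evalMat_det_ne_zero_of_indep (B.local_indep exists_Phi)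
  have hcusp := B.tendsto_discriminant_mul_evalMat_inv
  rw [finrank_cuspForm_eq]
  exact B.genus_of (B.k_le_ten hdet hcusp) (B.finrank_CFsub hdet hcusp) B.card_zero
    (B.two_mul_card_four exists_Phi) (B.three_mul_card_six exists_Phi)

end Fermat.Agent.S20
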