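import Fermat.Statements.S23
import Fermat.Agent.S23.Final
import Fermat.Agent.S23.Ratio
import Fermat.Agent.S23.Primitive
import Fermat.Agent.S23.Integrality
import Fermat.Agent.S23.BddDenoms
import Fermat.Agent.S23.ConjStable

set_option autoImplicit false
open CuspForm

namespace Fermat.Agent.S23

theorem result (N : ℕ) [NeZero N] : CuspForm.HasIntegralStructure N 2 := by
  exact hasIntegralStructure_of_packages N 2
    (fun σ f => conj_stable_of_ratio N (fun g => Fermat.Agent.S23.ratio N g) σ f)
    (fun g => Fermat.Agent.S23.ratio N g)
    (fun f => integrality N f)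
    (fun F hF A B hA hB hA0 hFAB n C hC hint => bdd_denoms F hF A B hA hB hA0 hFAB n C hC hint)

end Fermat.Agent.S23
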