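import Fermat.Statements.S02

set_option autoImplicit false
open FreyPackage

namespace Fermat.Agent.S02

/-- Core step: a coprime solution with `b` even gives a Frey package (after possibly
negating everything to arrange `a ≡ 3 mod 4`). -/
theorem S02_core (a b c : ℤ) (ha : a ≠ 0) (hb : b ≠ 0) (hc : c ≠ 0) (p : ℕ) (pp : p.Prime)
    (hp5 : 5 ≤ p) (H : a ^ p + b ^ p = c ^ p) (hab : IsCoprime a b) (hb2 : (2 : ℤ) ∣ b) :
    Nonempty FreyPackage := by
  have hpodd : Odd p := pp.odd_of_ne_two (by omega)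
  have hgcd : gcd a b = 1 := by
    show ((Int.gcd a b : ℕ) : ℤ) = 1
    rw [Int.isCoprime_iff_gcd_eq_one.1 hab]
    rfl
  have hb2' : ((b : ℤ) : ZMod 2) = 0 := (ZMod.intCast_zmod_eq_zero_iff_dvd b 2).2 hb2
  -- a is odd
  have ha_odd : ¬ (2 : ℤ) ∣ a := by
    intro h2a
    have : IsUnit (2 : ℤ) := hab.isUnit_of_dvd' h2a hb2
    rw [Int.isUnit_iff] at this
    omega
  have hmod : a % 4 = 1 ∨ a % 4 = 3 := by omega
  rcases hmod with h1 | h3
  · -- negate everything
    refine ⟨{ a := -a, b := -b, c := -c, ha0 := neg_ne_zero.2 ha, hb0 := neg_ne_zero.2 hb,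
              hc0 := neg_ne_zero.2 hc, p := p, pp := pp, hp5 := hp5, hFLT := ?_, hgcdab := ?_,
              ha4 := ?_, hb2 := ?_ }⟩
    · rw [hpodd.neg_pow, hpodd.neg_pow, hpodd.neg_pow, ← H]; ring
    · rw [gcd_neg, neg_gcd]; exact hgcd
    · have h4 : ((-a - 3 : ℤ) : ZMod 4) = 0 := by
        rw [ZMod.intCast_zmod_eq_zero_iff_dvd]
        omega
      have : ((-a : ℤ) : ZMod 4) = ((-a - 3 : ℤ) : ZMod 4) + 3 := by push_cast; ring
      rw [this, h4, zero_add]
    · push_cast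
      rw [hb2', neg_zero]
  · refine ⟨{ a := a, b := b, c := c, ha0 := ha, hb0 := hb,
              hc0 := hc, p := p, pp := pp, hp5 := hp5, hFLT := H, hgcdab := hgcd,
              ha4 := ?_, hb2 := hb2' }⟩
    have h4 : ((a - 3 : ℤ) : ZMod 4) = 0 := by
      rw [ZMod.intCast_zmod_eq_zero_iff_dvd]
      omega
    have : ((a : ℤ) : ZMod 4) = ((a - 3 : ℤ) : ZMod 4) + 3 := by push_cast; ring
    rw [this, h4, zero_add]

/-- Coprime version. -/
theorem S02_coprime (a b c : ℤ) (ha : a ≠ 0) (hb : b ≠ 0) (hc : c ≠ 0) (p : ℕ) (pp : p.Prime)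
    (hp5 : 5 ≤ p) (H : a ^ p + b ^ p = c ^ p) (hab : IsCoprime a b) :
    Nonempty FreyPackage := by
  have hpodd : Odd p := pp.odd_of_ne_two (by omega)
  have hp0 : 0 < p := by omega
  by_cases hb2 : (2 : ℤ) ∣ b
  · exact S02_core a b c ha hb hc p pp hp5 H hab hb2
  by_cases ha2 : (2 : ℤ) ∣ a
  · exact S02_core b a c hb ha hc p pp hp5 (by rw [add_comm]; exact H) hab.symm ha2
  -- both odd, so c is even
  have hc2 : (2 : ℤ) ∣ c := by
    have hap : ¬ (2 : ℤ) ∣ a ^ p := fun h => ha2 (Int.prime_two.dvd_of_dvd_pow h)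
    have hbp : ¬ (2 : ℤ) ∣ b ^ p := fun h => hb2 (Int.prime_two.dvd_of_dvd_pow h)
    have : (2 : ℤ) ∣ c ^ p := by
      rw [← H]; omega
    exact Int.prime_two.dvd_of_dvd_pow this
  have hac : IsCoprime a c := by
    have h1 : IsCoprime a (b ^ p) := hab.pow_right
    have h2 : IsCoprime a (c ^ p) := by
      rw [← H]
      have : IsCoprime a (b ^ p + a ^ (p - 1) * a) := h1.add_mul_right_right _
      have e : b ^ p + a ^ (p - 1) * a = a ^ p + b ^ p := by
        rw [← pow_succ, Nat.sub_add_cancel hp0]; ring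
      rwa [e] at this
    exact (IsCoprime.pow_right_iff hp0).1 h2
  refine S02_core a (-c) (-b) ha (neg_ne_zero.2 hc) (neg_ne_zero.2 hb) p pp hp5 ?_ hac.neg_right
    ((dvd_neg).2 hc2)
  rw [hpodd.neg_pow, hpodd.neg_pow, ← H]; ring

theorem result (a b c : ℤ) (ha : a ≠ 0) (hb : b ≠ 0) (hc : c ≠ 0) (p : ℕ) (pp : p.Prime) (hp5 : 5 ≤ p) (H : a ^ p + b ^ p = c ^ p) : Nonempty FreyPackage := by
  by_contra hne
  have hpodd : Odd p := pp.odd_of_ne_two (by omega)
  have key : FermatLastTheoremWith ℤ p := by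
    apply fermatLastTheoremWith_of_fermatLastTheoremWith_coprime
    intro a b c ha hb hc hgcd H
    apply hne
    have HF : a ^ p + b ^ p + (-c) ^ p = 0 := by
      rw [hpodd.neg_pow, H]; ring
    have hgcd' : Finset.gcd {a, b, -c} id = 1 := by
      rw [← hgcd]
      have hn : normalize (-c) = normalize c :=
        normalize_eq_normalize_iff.2 ⟨by simp, by simp⟩
      simp only [Finset.gcd_insert, Finset.gcd_singleton, id_eq, hn]
    exact S02_coprime a b c ha hb hc p pp hp5 H (isCoprime_of_gcd_eq_one_of_FLT hgcd' HF)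
  exact key a b c ha hb hc H

end Fermat.Agent.S02
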