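import Fermat.Statements.S05
import Fermat.Agent.S05.FreyCore
import Fermat.Agent.S05.NodeLevel
import Fermat.Agent.S05.Near
import Fermat.Agent.S05.LvlAddSub

/-!
# S05: the mod-`p` Galois representation of the Frey curve is unramified at every prime
`q ≠ 2, p`

Elementary proof (no Tate curve, no formal groups), see `NOTES/items/05_plan.md`:
* `S05/Interface.lean`  : reduction to `σ Q = Q` for `σ` stabilising `A` and acting trivially on
  its residue field, `Q` a `p`-torsion point;
* `S05/Kernel.lean`     : the kernel of reduction has no `p`-torsion; torsion points are integral;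
* `S05/UnitDeriv.lean`, `S05/Near.lean` : two integral points with the same reduction differ by
  a point of the kernel of reduction (smooth points and points at the node);
* `S05/Lvl*.lean`, `S05/NodeLevel.lean` : the level of a torsion point at the node;
* `S05/Final.lean`, `S05/FreyNode.lean`, `S05/FreyCore.lean` : assembly.
-/

set_option autoImplicit false
open WeierstrassCurve WeierstrassCurve.Affine WeierstrassCurve.Affine.Point
open CuspForm ModularFormClass UpperHalfPlane
open FreyPackage

namespace Fermat.Agent.S05

theorem result (P : FreyPackage) {q : ℕ} (hq : q.Prime) (hq2 : q ≠ 2) (hqp : q ≠ P.p) : P.GaloisRepUnramifiedAt q := by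
  have hp2 : P.p ≠ 2 := by have := P.hp5; omega
  exact S05_unramified_of_core P q (fun A hA σ hσA hσ Q hQ =>
    S05_frey_core_of P hq hq2 hqp A hA
      (fun x₀ hN _ _ h hP hX =>
        S05_node_level_of_node A hN (S05_lvl_add_sub A hN) h P.pp hp2 hP hX)
      (fun x₀ hN _ _ _ _ h h' hX hβ hXX hbr => S05_near_node A hN h h' hX hβ hXX hbr)
      σ hσA hσ Q hQ)

end Fermat.Agent.S05
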