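import Fermat.Statements.S07
import Fermat.Prelude.Thm_ModularForm_sturm_bound_Gamma0

set_option autoImplicit false
open WeierstrassCurve WeierstrassCurve.Affine WeierstrassCurve.Affine.Point
open CuspForm ModularFormClass UpperHalfPlane
open ModularForm

namespace Fermat.Agent.S07

open scoped MatrixGroups in
/-- The index of `Γ₀(2)` in `SL(2, ℤ)` is at most `4` (it is in fact `3`): the first column
mod `2` separates left cosets. -/
theorem S07_index_Gamma0_two_le : (CongruenceSubgroup.Gamma0 2).index ≤ 4 := by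
  let φ : SL(2, ℤ) ⧸ CongruenceSubgroup.Gamma0 2 → ZMod 2 × ZMod 2 :=
    fun q => (((q.out 0 0 : ℤ) : ZMod 2), ((q.out 1 0 : ℤ) : ZMod 2))
  have hφ : Function.Injective φ := by
    intro q q' h
    rw [← QuotientGroup.out_eq' q, ← QuotientGroup.out_eq' q']
    rw [QuotientGroup.eq, CongruenceSubgroup.Gamma0_mem]
    simp only [φ, Prod.mk.injEq] at h
    obtain ⟨h0, h1⟩ := h
    rw [Matrix.SpecialLinearGroup.coe_mul, Matrix.SpecialLinearGroup.coe_inv,
      Matrix.adjugate_fin_two, Matrix.mul_apply, Fin.sum_univ_two]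
    simp only [Matrix.of_apply, Matrix.cons_val', Matrix.cons_val_zero, Matrix.cons_val_one,
      Matrix.cons_val_fin_one]
    push_cast
    rw [h0, h1]
    ring
  calc (CongruenceSubgroup.Gamma0 2).index
      = Nat.card (SL(2, ℤ) ⧸ CongruenceSubgroup.Gamma0 2) := rfl
    _ ≤ Nat.card (ZMod 2 × ZMod 2) := Nat.card_le_card_of_injective φ hφ
    _ = 4 := by simp

theorem result (f : CuspForm (CongruenceSubgroup.Gamma0 2) 2) : f = 0 := by
  have h1 : (1 : ℝ) ∈ (CongruenceSubgroup.Gamma0 2 : Subgroup (GL (Fin 2) ℝ)).strictPeriods := by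
    simp [CongruenceSubgroup.strictPeriods_Gamma0]
  have hidx := S07_index_Gamma0_two_le
  have key : CuspForm.toModularFormₗ f = 0 := by
    apply ModularForm.sturm_bound_Gamma0 2
    intro n hn
    have hn0 : n = 0 := by
      have h2 : ((2 : ℤ) * ((CongruenceSubgroup.Gamma0 2).index : ℤ)).toNat / 12 = 0 := by
        apply Nat.div_eq_of_lt
        have : ((2 : ℤ) * ((CongruenceSubgroup.Gamma0 2).index : ℤ)).toNat
            = 2 * (CongruenceSubgroup.Gamma0 2).index := by
          have : ((2 : ℤ) * ((CongruenceSubgroup.Gamma0 2).index : ℤ))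
              = ((2 * (CongruenceSubgroup.Gamma0 2).index : ℕ) : ℤ) := by push_cast; ring
          rw [this, Int.toNat_natCast]
        omega
      rw [h2] at hn
      omega
    subst hn0
    exact CuspFormClass.qExpansion_coeff_zero f one_pos h1
  exact CuspForm.toModularFormₗ_injective (by simpa using key)

end Fermat.Agent.S07
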