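import Fermat.Statements.S10
import Fermat.Agent.Kummer.Main
import Fermat.Agent.Kummer.KLField
import Fermat.Agent.Kummer.KLData5
import Fermat.Agent.Kummer.KLData7
import Fermat.Agent.Kummer.KLData13
import Fermat.Agent.Kummer.PID7
import Fermat.Agent.Kummer.PID13
import Fermat.Agent.Kummer.CaseI

set_option autoImplicit false
open WeierstrassCurve WeierstrassCurve.Affine WeierstrassCurve.Affine.Point
open CuspForm ModularFormClass UpperHalfPlane
open FreyPackage

namespace Fermat.Agent.S10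

/-- Fermat's Last Theorem for exponent `5` (Kummer). -/
theorem S10_flt_five (a b c : ℤ) (ha : a ≠ 0) (hb : b ≠ 0) (hc : c ≠ 0) (hab : IsCoprime a b) :
    a ^ 5 + b ^ 5 ≠ c ^ 5 := by
  have : Fact (Nat.Prime 5) := ⟨by norm_num⟩
  have : NeZero ((5 : ℕ) : ℚ) := ⟨by norm_num⟩
  have : IsCyclotomicExtension {5} ℚ (CyclotomicField 5 ℚ) :=
    CyclotomicField.isCyclotomicExtension 5 ℚ
  exact Fermat.Agent.Kummer.fermat_of_pid_kummer (p := 5) (by norm_num) (CyclotomicField 5 ℚ)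
    (IsCyclotomicExtension.Rat.five_pid _)
    (Fermat.Agent.Kummer.KL_kummer_lemma_of_data Fermat.Agent.Kummer.KL_data_five (by norm_num)
      (CyclotomicField 5 ℚ))
    (fun a b c hab h => Fermat.Agent.Kummer.caseI_five hab h) a b c ha hb hc hab

/-- Fermat's Last Theorem for exponent `7` (Kummer). -/
theorem S10_flt_seven (a b c : ℤ) (ha : a ≠ 0) (hb : b ≠ 0) (hc : c ≠ 0) (hab : IsCoprime a b) :
    a ^ 7 + b ^ 7 ≠ c ^ 7 := by
  have : Fact (Nat.Prime 7) := ⟨by norm_num⟩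
  have : NeZero ((7 : ℕ) : ℚ) := ⟨by norm_num⟩
  have : IsCyclotomicExtension {7} ℚ (CyclotomicField 7 ℚ) :=
    CyclotomicField.isCyclotomicExtension 7 ℚ
  exact Fermat.Agent.Kummer.fermat_of_pid_kummer (p := 7) (by norm_num) (CyclotomicField 7 ℚ)
    (Fermat.Agent.Kummer.pid_seven _)
    (Fermat.Agent.Kummer.KL_kummer_lemma_of_data Fermat.Agent.Kummer.KL_data_seven (by norm_num)
      (CyclotomicField 7 ℚ))
    (fun a b c hab h => Fermat.Agent.Kummer.caseI_seven hab h) a b c ha hb hc hab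

/-- Fermat's Last Theorem for exponent `13` (Kummer). -/
theorem S10_flt_thirteen (a b c : ℤ) (ha : a ≠ 0) (hb : b ≠ 0) (hc : c ≠ 0)
    (hab : IsCoprime a b) : a ^ 13 + b ^ 13 ≠ c ^ 13 := by
  have : Fact (Nat.Prime 13) := ⟨by norm_num⟩
  have : NeZero ((13 : ℕ) : ℚ) := ⟨by norm_num⟩
  have : IsCyclotomicExtension {13} ℚ (CyclotomicField 13 ℚ) :=
    CyclotomicField.isCyclotomicExtension 13 ℚ
  exact Fermat.Agent.Kummer.fermat_of_pid_kummer (p := 13) (by norm_num) (CyclotomicField 13 ℚ)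
    (Fermat.Agent.Kummer.pid_thirteen _)
    (Fermat.Agent.Kummer.KL_kummer_lemma_of_data Fermat.Agent.Kummer.KL_data_thirteen (by norm_num)
      (CyclotomicField 13 ℚ))
    (fun a b c hab h => Fermat.Agent.Kummer.caseI_thirteen hab h) a b c ha hb hc hab

theorem result (P : FreyPackage) (hp : P.p = 5 ∨ P.p = 7 ∨ P.p = 13) : ¬ HasGaloisStableCofixedLine (K := AlgebraicClosure ℚ) ℚ P.freyCurve P.p := by
  intro _
  have hFLT := P.hFLT
  have hab : IsCoprime P.a P.b := by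
    rw [Int.isCoprime_iff_gcd_eq_one]
    have h := P.hgcdab
    rw [← Int.coe_gcd] at h
    exact_mod_cast h
  rcases hp with hp | hp | hp
  · rw [hp] at hFLT
    exact S10_flt_five P.a P.b P.c P.ha0 P.hb0 P.hc0 hab hFLT
  · rw [hp] at hFLT
    exact S10_flt_seven P.a P.b P.c P.ha0 P.hb0 P.hc0 hab hFLT
  · rw [hp] at hFLT
    exact S10_flt_thirteen P.a P.b P.c P.ha0 P.hb0 P.hc0 hab hFLT

end Fermat.Agent.S10
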