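import Fermat.Statements.S11
import Fermat.Agent.Kummer.Main
import Fermat.Agent.Kummer.KLField
import Fermat.Agent.Kummer.KLData11
import Fermat.Agent.Kummer.PID11
import Fermat.Agent.Kummer.CaseI

set_option autoImplicit false
open WeierstrassCurve WeierstrassCurve.Affine WeierstrassCurve.Affine.Point
open CuspForm ModularFormClass UpperHalfPlane
open FreyPackage

namespace Fermat.Agent.S11

/-- Fermat's Last Theorem for exponent `11` (Kummer), in the form needed here. -/
theorem S11_flt_eleven (a b c : ℤ) (ha : a ≠ 0) (hb : b ≠ 0) (hc : c ≠ 0) (hab : IsCoprime a b) :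
    a ^ 11 + b ^ 11 ≠ c ^ 11 := by
  have : Fact (Nat.Prime 11) := ⟨by norm_num⟩
  have : NeZero ((11 : ℕ) : ℚ) := ⟨by norm_num⟩
  have : IsCyclotomicExtension {11} ℚ (CyclotomicField 11 ℚ) :=
    CyclotomicField.isCyclotomicExtension 11 ℚ
  exact Fermat.Agent.Kummer.fermat_of_pid_kummer (p := 11) (by norm_num) (CyclotomicField 11 ℚ)
    (Fermat.Agent.Kummer.pid_eleven _)
    (Fermat.Agent.Kummer.KL_kummer_lemma_of_data Fermat.Agent.Kummer.KL_data_eleven (by norm_num)
      (CyclotomicField 11 ℚ))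
    (fun a b c hab h => Fermat.Agent.Kummer.caseI_eleven hab h) a b c ha hb hc hab

theorem result (P : FreyPackage) (hp : P.p = 11) : ¬ HasGaloisStableCofixedLine (K := AlgebraicClosure ℚ) ℚ P.freyCurve P.p := by
  intro _
  have hFLT := P.hFLT
  rw [hp] at hFLT
  have hab : IsCoprime P.a P.b := by
    rw [Int.isCoprime_iff_gcd_eq_one]
    have h := P.hgcdab
    rw [← Int.coe_gcd] at h
    exact_mod_cast h
  exact S11_flt_eleven P.a P.b P.c P.ha0 P.hb0 P.hc0 hab hFLT

end Fermat.Agent.S11
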