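import Fermat.Statements.S13
import Fermat.Agent.S05
import Fermat.Agent.S13.Assemble
import Fermat.Agent.S13.TwoUnip
import Fermat.Agent.S13.TwoRat
import Fermat.Agent.S13.AtP
import Fermat.Agent.Lib.DivPolyCount
import Fermat.Agent.Lib.UnramifiedTrivial

/-!
# S13: if the mod-`p` representation of the Frey curve is reducible, it has a Galois-stable
cofixed line

Elementary proof (no Tate curve, no formal groups, no Weil pairing, no class field theory),
see `NOTES/items/12_route.md`:

* `Lib/DivPoly*.lean`    : `E[p] ≠ 0`, `#E[p] ≤ p²` (division polynomials);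
* `S05.lean`             : inertia at `ℓ ≠ 2, p` acts trivially on `E[p]`;
* `S13/Two*.lean`        : inertia at `2` acts unipotently; no rational point of order `p`;
* `S13/AtP*.lean`        : inertia at `p` acts trivially on a stable line or on the quotient;
* `Lib/UnramifiedTrivial`: an everywhere unramified character of `Gal(ℚ̄/ℚ)` is trivial (Minkowski);
* `S13/Assemble.lean`    : linear algebra over `𝔽_p` and wiring.
-/

set_option autoImplicit false
open WeierstrassCurve WeierstrassCurve.Affine WeierstrassCurve.Affine.Point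
open CuspForm ModularFormClass UpperHalfPlane
open FreyPackage

namespace Fermat.Agent.S13

/-- the discriminant of the Frey curve over `ℚ̄` is nonzero. -/
theorem S13_frey_Δ_ne_zero (P : FreyPackage) :
    (P.freyCurve⁄(AlgebraicClosure ℚ)).Δ ≠ 0 := by
  rw [Fermat.Agent.S05.S05_frey_Δ_map]
  have h1 : (((P.a * P.b * P.c) ^ (2 * P.p) : ℤ) : AlgebraicClosure ℚ) ≠ 0 := by
    have : (P.a * P.b * P.c) ^ (2 * P.p) ≠ 0 := pow_ne_zero _ P.habc0
    exact_mod_cast this
  have h2 : ((256 : ℤ) : AlgebraicClosure ℚ) ≠ 0 := by norm_num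
  exact div_ne_zero h1 h2

theorem result (P : FreyPackage) (hred : ¬ GaloisRepIsIrreducible (K := AlgebraicClosure ℚ) ℚ P.freyCurve P.p) : HasGaloisStableCofixedLine (K := AlgebraicClosure ℚ) ℚ P.freyCurve P.p := by
  have hp2 : P.p ≠ 2 := by have := P.hp5; omega
  have hcard := Fermat.Agent.Lib.dp_card_torsion_le (P.freyCurve⁄(AlgebraicClosure ℚ)) P.pp hp2
  exact S13_of_inputs P
    (Fermat.Agent.Lib.dp_exists_torsion (P.freyCurve⁄(AlgebraicClosure ℚ))
      (S13_frey_Δ_ne_zero P) P.pp hp2)
    hcard.1 hcard.2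
    (fun q hq hq2 hqp => Fermat.Agent.S05.result P hq hq2 hqp)
    (fun A hA σ τ hσ hτ Q hQ => S13_two_unipotent P A hA σ τ hσ hτ Q hQ)
    (fun Q hQ hfix => S13_two_no_rational P Q hQ hfix)
    (fun A hA Q₀ hQ₀ hpQ₀ hstab => S13_atp P A hA Q₀ hQ₀ hpQ₀ hstab)
    (fun H hn hopen hin => @S13_unramified_trivial H hn hopen hin)
    hred

end Fermat.Agent.S13
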