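import Fermat.Statements.S14
import Fermat.Agent.S14.Final
import Fermat.Agent.S14.Cross
import Fermat.Agent.S14.FirstIneq

set_option autoImplicit false
open ExtCitation

namespace Fermat.Agent.S14

theorem result {p : ℕ} [Fact p.Prime] (h3 : 3 ≤ p) :
    ExtCitation.ExtVanishingCts p := by
  have hp2 : p ≠ 2 := by omega
  exact S14_final p h3 (S14_recip_of_n1 p hp2 (S14_n1 p hp2))

end Fermat.Agent.S14
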