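import Fermat.Statements.S16
import Fermat.Agent.S16.Main
import Fermat.Agent.S16.Upper2
import Fermat.Agent.S16.Case7

/-!
# S16: the index of the Eisenstein ideal (Mazur), `#(𝕋/I𝕋) = (p − 1)/gcd(p − 1, 12)`

Assembly (helper14, S16 squad): `S16_main_of2` (DUAL, LOWER via theta series, EIS, SMALL primes,
TR1, arithmetic glue) + `S16_upper_tr2` (TR2) + `S16_case7` (the case `p ≡ 7 mod 8`).
-/

set_option autoImplicit false
open ModularCurve CuspForm
open ModularCurve

namespace Fermat.Agent.S16

theorem result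
    (p : ℕ) [Fact p.Prime] :
    Nat.card (↥(heckeLatticeAlgebra p ∅) ⧸
        Ideal.map ((latticeRestrictHom p ∅).toRingHom.comp (heckeEvalForms p 2))
          (eisensteinIdeal p)) =
      eisensteinNumerator p :=
  S16_main_of2 p (fun _ _ hX x hx ℓ s hℓ hs => S16_upper_tr2 p hX x hx ℓ s hℓ hs)
    (fun h7 => S16_case7 p Fact.out h7)

end Fermat.Agent.S16
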