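-- Statement S17 (row 16): Mordell–Weil for J₀(N): the Galois-fixed points of J₀(N)(ℚ̄) form a
-- finitely generated group.  Proof: TRACK 8 (descent: DIV + weak Mordell–Weil + heights),
-- assembled in Fermat/Agent/S17/Final.lean, Final2.lean, Final3.lean (`S17F_main`).
import Fermat.Statements.S17
import Fermat.Agent.S17.Final3

set_option autoImplicit false
open ModularCurve AlgebraicCurve
open ModularCurve ModularCurve.JZero

namespace Fermat.Agent.S17

theorem result (N : ℕ) [NeZero N] (hN : N.Prime) (hN5 : 5 ≤ N) :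
    AddGroup.FG ↥(FixedPoints.addSubgroup ((AlgebraicClosure ℚ) ≃ₐ[ℚ] (AlgebraicClosure ℚ)) (JZero N)) :=
  S17F_main N

end Fermat.Agent.S17
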