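import Fermat.Statements.S18
import Fermat.Agent.S18.NormFinal
import Fermat.Agent.S18.OntoX0

/-!
# S18: injectivity of reduction mod `ℓ` on the prime-to-`ℓ` torsion of `J₀(N)`

Assembly (TRACK 3, captain helper4): `NMX_S18_of_onto` (helper24: NORM + the abstract chain
V, T, R, P0/SEP, H, DIFF, DER, LOC, X0 of helper20, helper21, helper2, helper26, helper23) applied
to the concrete ONTO on the auxiliary field `F' = F(μ)` (`ONX_onto`, helper9: SQUEEZE of helper25
with ABH, MU, CUSP, DEG, SEPP of helper4, helper16, helper28, helper10, helper12, helper6,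
helper1, helper17).
-/

set_option autoImplicit false
open ModularCurve

namespace Fermat.Agent.S18

theorem result (N : ℕ) [NeZero N] {ℓ : ℕ}
    [Fact ℓ.Prime] (hℓN : ¬ ℓ ∣ N) (A : ValuationSubring (AlgebraicClosure ℚ)) (hA : A.LiesOverPrime ℓ)
    (h : ModularCurve.ReductionInputsModL A N) (m : ℕ) (hm : ¬ ℓ ∣ m) (z : ModularCurve.JZero N)
    (hmz : m • z = 0) (hz : ModularCurve.reductionModL A N z = 0) :
    z = 0 := by
  have hℓ : ℓ.Prime := Fact.out
  refine NMX_S18_of_onto N A hℓ hℓN hA h (fun w hw => ?_) m hm z hmz hz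
  refine ONX_onto N A h.choose_spec.2 hA hℓN w (fun Q hQ => hw Q ?_)
  rwa [SP_jbarN_eq N A h.choose_spec.2] at hQ

end Fermat.Agent.S18
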