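-- Statement S22 (row 21): the Hecke algebra of cusp forms is a finitely generated ℤ-module.
-- Proof: Eichler-Shimura period lattice (weight at least two) plus the low-weight vanishing.
import Fermat.Statements.S22
import Fermat.Agent.S22.Main

set_option autoImplicit false
open CuspForm

namespace Fermat.Agent.S22

theorem result (N : ℕ) [NeZero N] (k : ℤ) (S : Set ℕ) :
    Module.Finite ℤ (CuspForm.heckeAlgebra N k S) := by
  exact moduleFinite_heckeAlgebra N k S

end Fermat.Agent.S22
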