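import Fermat.Statements.S24
import Fermat.Agent.S20
import Fermat.Agent.S24.Wiring
import Fermat.Agent.S24.EvDegEq
import Fermat.Agent.S24.FinCountFinal
import Fermat.Agent.S24.CuspCount

/-!
# S24: the genus of the function field of `X₀(N)` over `ℚ̄` is the classical genus formula

Assembly of the S24 squad's packages:
* `S24_of_counts` (Wiring.lean): Riemann–Hurwitz for `j`, from the four place counts;
* `S24_hcount`, `S24_h0`, `S24_h1728` (FinCountFinal.lean): places over `j = c`;
* `S24_hinf` (CuspCount.lean): places over `j = ∞`;
* `finrank_eq_psi`, `transcendental_jB`, `finiteDimensional_jB` (EvDeg/EvDegEq);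
* `Fermat.Agent.S20.result`: the genus formula is a natural number.
-/

set_option autoImplicit false
open ModularCurve

namespace Fermat.Agent.S24

theorem result (N : ℕ) [NeZero N]
    [AlgebraicCurve.HasCanonicalDivisor (K := AlgebraicClosure ℚ) (F := ↥(ModularCurve.modularFunctionFieldBar N))] :
    (AlgebraicCurve.genus (AlgebraicClosure ℚ) ↥(ModularCurve.modularFunctionFieldBar N) : ℚ)
      = ModularCurve.genusFormula N := by
  have hfd := finiteDimensional_jB N
  exact S24_of_counts N (transcendental_jB N) (finrank_eq_psi N) (S24_hcount N) (S24_h0 N)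
    (S24_h1728 N) (S24_hinf N) _ (Fermat.Agent.S20.result N)

end Fermat.Agent.S24
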