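-- S31 (row 30): a Hecke–Galois datum is unramified outside `S`.
-- Proof: operator-valued universal trace on the Galois–Hecke tower of track 4
-- (Fermat/Agent/S31/Asm.lean, Final.lean), Carayol's lemma, Lucas sequences, Frobenius density.
import Fermat.Statements.S31
import Fermat.Agent.S31.Final
import Fermat.Agent.GalRep.HeckeFinal
import Fermat.Agent.GalRep.KMFinal
import Fermat.Agent.GalRep.ESWire
import Fermat.Agent.GalRep.T3Wire

set_option autoImplicit false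
variable {p : ℕ} {N : ℕ} [NeZero N] {S : Finset ℕ}
  {𝒪 : Type} [CommRing 𝒪] [IsDomain 𝒪] [IsDiscreteValuationRing 𝒪]
  [IsAdicComplete (IsLocalRing.maximalIdeal 𝒪) 𝒪]
  {θ : CuspForm.heckeAlgebra N 2 (↑S : Set ℕ) →+* IsLocalRing.ResidueField 𝒪}
  {T : Type} [CommRing T] [IsLocalRing T] [IsNoetherianRing T]
  [IsAdicComplete (IsLocalRing.maximalIdeal T) T] [Algebra 𝒪 T] [IsLocalHom (algebraMap 𝒪 T)]
  [Module.Finite 𝒪 T] [Module.Free 𝒪 T]
open CuspForm CuspForm.HeckeGaloisRepDatum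

namespace Fermat.Agent.S31

theorem result (hp : p.Prime)
    (hp𝒪 : (p : 𝒪) ∈ IsLocalRing.maximalIdeal 𝒪) (hpS : p ∈ S)
    (hNS : ∀ q : ℕ, q.Prime → q ∣ N → q ∈ S)
    (H : CuspForm.HeckeGaloisRepDatum N (↑S : Set ℕ) 𝒪 θ T)
    (q : ℕ) (hq : q.Prime) (hqS : q ∉ S) :
    H.ρ.IsUnramifiedAt q :=
  S31_of_packages (fun N _ => Fermat.Agent.GalRep.KMF_kappa_final N)
    (fun N _ ℓ _ => Fermat.Agent.GalRep.GRHX_heckeES N ℓ)
    (fun N _ => Fermat.Agent.GalRep.ES_unram Fermat.Agent.GalRep.GRT3_s18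
      Fermat.Agent.GalRep.GRT3_ri N)
    hp hp𝒪 hpS hNS H q hq hqS

end Fermat.Agent.S31
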