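import Fermat.Statements.S37
import Fermat.Agent.S37.Main
import Fermat.Agent.S37.H1
import Fermat.Agent.S18

/-!
# S37: Eichler–Shimura congruence relation (`SpecializationExists`)

Route (NOTES/items/36_route_helper26.md): the norm trick `S37_main_of` (S37/Main.lean) with
* S18 (`Fermat.Agent.S18.result`: prime-to-`ℓ` torsion injects into the reduction), and
* (H1) `S37_H1` (S37/H1.lean): the `q`-expansion of `Norm_{F_{Nℓ}/α F_N} (β f)`.
-/

set_option autoImplicit false

open ModularCurve

namespace Fermat.Agent.S37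

theorem result (N p : ℕ) [NeZero N] (hcomm : ModularCurve.HeckeOperatorsCommuteBar N) : letI := ModularCurve.heckeModuleBar N; ∀ (_ : SMulCommClass (AlgebraicClosure ℚ ≃ₐ[ℚ] AlgebraicClosure ℚ) ModularCurve.HeckeAlg (ModularCurve.JZero N)), ModularCurve.SpecializationExists (K := ℚ) (L := AlgebraicClosure ℚ) N p (ModularCurve.JZero N) :=
  S37_main_of N p hcomm
    (fun hℓN A hA h m hm z hmz hz => Fermat.Agent.S18.result N hℓN A hA h m hm z hmz hz)
    (fun ℓ _ hℓ hℓN => S37_H1 N ℓ hℓ hℓN)

end Fermat.Agent.S37
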