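import Fermat.Statements.S53
import Fermat.Agent.S53.Assemble
import Fermat.Agent.S53.RingSideProd
import Fermat.Agent.S53.ArtinUniv

/-!
# S53: existence of the universal deformation ring

Route (no Schlessinger): rigidify the deformation functor by normalising three matrix entries
(`Rigidify.lean`), show that the rigidified functor on Artinian test algebras is pro-represented
by a quotient of a power series ring `𝒪⟦T₁,…,T_m⟧` (`Coords.lean`, `ArtinPairs.lean`,
`ArtinUniv.lean`), and pass to complete noetherian local coefficient algebras (`Univ.lean`).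
-/

set_option autoImplicit false
open GaloisRep

namespace Fermat.Agent.S53

theorem result
    (𝒪 : Type) [CommRing 𝒪] [IsDomain 𝒪] [IsDiscreteValuationRing 𝒪]
    [IsAdicComplete (IsLocalRing.maximalIdeal 𝒪) 𝒪] [Finite (IsLocalRing.ResidueField 𝒪)]
    (ρbar : ResidualGaloisRep (IsLocalRing.ResidueField 𝒪))
    (𝒟 : ∀ ⦃A : Type⦄ [CommRing A] [IsLocalRing A] [Algebra 𝒪 A], GaloisRepAdic A → Prop)
    (habs : ρbar.IsAbsolutelyIrreducible)
    (h𝒟 : GaloisRep.IsDeformationCondition 𝒪 𝒟)
    (hbar : 𝒟 (GaloisRepAdic.ofResidualGaloisRep ρbar))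
    (hfin : GaloisRep.TangentFinite 𝒪 ρbar 𝒟) :
    Nonempty (GaloisRep.DeformationRingData 𝒪 ρbar 𝒟) := by
  exact S53_result_core 𝒪 ρbar 𝒟 habs h𝒟 hbar hfin
    (fun _ _ => S53_RS_prod h𝒟)
    (fun _ _ _ _ h => S53_Gout h)

end Fermat.Agent.S53
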